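import Mathlib

/-!
# Chevalley's place-extension theorem (DIV-B brick (C2))

Mathlib only.  For a ring `A` mapping to a field `K` and to an algebraically closed field `Ω`
(compatibly: `ι a = 0 → f₀ a = 0`), there are a valuation subring `V` of `K` containing the image
of `A` and a ring homomorphism `f : V →+* Ω` extending `f₀` whose kernel is the maximal ideal
of `V`.

Consequences: split places of an extension `M / L` with `L` algebraically closed, and the
one-step extension of a place along a field embedding.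

The proof is the classical one (Zorn on partial homomorphisms), run on *graphs*: a partial
homomorphism from a subring of `K` to `Ω` is the same as a subring `Γ` of `K × Ω` such that
`p.1 = 0 → p.2 = 0` on `Γ`.
-/

namespace Fermat.Agent.MW.DivB.Chevalley

open Polynomial IsLocalRing

universe u v

variable {K : Type u} {Ω : Type v} [Field K] [Field Ω]

/-- A subring of `K × Ω` is *functional* when it is the graph of a homomorphism from a subring of
`K` to `Ω`. -/
def IsFun (Γ : Subring (K × Ω)) : Prop := ∀ p ∈ Γ, p.1 = 0 → p.2 = 0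

theorem isFun_sSup {c : Set (Subring (K × Ω))} (hne : c.Nonempty) (hc : IsChain (· ≤ ·) c)
    (h : ∀ Γ ∈ c, IsFun Γ) : IsFun (sSup c) := by
  intro p hp h0
  obtain ⟨Γ, hΓ, hpΓ⟩ := (Subring.mem_sSup_of_directedOn hne hc.directedOn).mp hp
  exact h Γ hΓ p hpΓ h0

/-- Zorn: every functional subring is contained in a maximal one. -/
theorem exists_maximal (Γ₀ : Subring (K × Ω)) (h₀ : IsFun Γ₀) :
    ∃ Γ, Γ₀ ≤ Γ ∧ IsFun Γ ∧ ∀ Γ', IsFun Γ' → Γ ≤ Γ' → Γ' ≤ Γ := by
  obtain ⟨Γ, h1, h2⟩ := zorn_le_nonempty₀ {Γ : Subring (K × Ω) | IsFun Γ} (by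
    intro c hcs hc y hy
    exact ⟨sSup c, isFun_sSup ⟨y, hy⟩ hc (fun Γ hΓ => hcs hΓ), fun z hz => le_sSup hz⟩) Γ₀ h₀
  exact ⟨Γ, h1, h2.1, fun Γ' hΓ' hle => h2.2 hΓ' hle⟩

/-- The subring `{z | ∃ n, z * p ^ n ∈ Γ}` (the localisation of `Γ` at `p ∈ Γ`, inside `K × Ω`). -/
def invSubring (Γ : Subring (K × Ω)) (p : K × Ω) (hp : p ∈ Γ) : Subring (K × Ω) where
  carrier := {z | ∃ n : ℕ, z * p ^ n ∈ Γ}
  mul_mem' := by
    rintro a b ⟨n, hn⟩ ⟨m, hm⟩
    refine ⟨n + m, ?_⟩
    have : a * b * p ^ (n + m) = a * p ^ n * (b * p ^ m) := by ring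
    rw [this]
    exact Γ.mul_mem hn hm
  one_mem' := ⟨0, by simp⟩
  add_mem' := by
    rintro a b ⟨n, hn⟩ ⟨m, hm⟩
    refine ⟨n + m, ?_⟩
    have : (a + b) * p ^ (n + m) = a * p ^ n * p ^ m + b * p ^ m * p ^ n := by ring
    rw [this]
    exact Γ.add_mem (Γ.mul_mem hn (Γ.pow_mem hp m)) (Γ.mul_mem hm (Γ.pow_mem hp n))
  zero_mem' := ⟨0, by simp⟩
  neg_mem' := by
    rintro a ⟨n, hn⟩
    exact ⟨n, by simpa using Γ.neg_mem hn⟩

theorem le_invSubring (Γ : Subring (K × Ω)) (p : K × Ω) (hp : p ∈ Γ) :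
    Γ ≤ invSubring Γ p hp := fun z hz => ⟨0, by simpa using hz⟩

theorem isFun_invSubring {Γ : Subring (K × Ω)} (hΓ : IsFun Γ) (p : K × Ω) (hp : p ∈ Γ)
    (hp2 : p.2 ≠ 0) : IsFun (invSubring Γ p hp) := by
  rintro z ⟨n, hn⟩ hz
  have h1 : (z * p ^ n).2 = 0 := hΓ _ hn (by simp [hz])
  have h2 : z.2 * p.2 ^ n = 0 := by simpa using h1
  exact (mul_eq_zero.mp h2).resolve_right (pow_ne_zero n hp2)

theorem inv_mem_invSubring (Γ : Subring (K × Ω)) (p : K × Ω) (hp : p ∈ Γ)
    (hp1 : p.1 ≠ 0) (hp2 : p.2 ≠ 0) : (p.1⁻¹, p.2⁻¹) ∈ invSubring Γ p hp := by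
  refine ⟨1, ?_⟩
  have : ((p.1⁻¹, p.2⁻¹) : K × Ω) * p ^ 1 = 1 := by
    ext <;> simp [hp1, hp2]
  rw [this]
  exact Γ.one_mem

section Maximal

variable {Γ : Subring (K × Ω)} (hΓ : IsFun Γ) (hmax : ∀ Γ', IsFun Γ' → Γ ≤ Γ' → Γ' ≤ Γ)

include hΓ hmax

/-- In a maximal functional subring, every element with nonzero second component is invertible. -/
theorem inv_mem_of_maximal {p : K × Ω} (hp : p ∈ Γ) (hp2 : p.2 ≠ 0) :
    (p.1⁻¹, p.2⁻¹) ∈ Γ := by
  have hp1 : p.1 ≠ 0 := fun h => hp2 (hΓ p hp h)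
  exact hmax _ (isFun_invSubring hΓ p hp hp2) (le_invSubring Γ p hp)
    (inv_mem_invSubring Γ p hp hp1 hp2)

theorem isUnit_iff_of_maximal (γ : Γ) : IsUnit γ ↔ (γ : K × Ω).2 ≠ 0 := by
  constructor
  · intro h
    have h' : IsUnit (((RingHom.snd K Ω).comp Γ.subtype) γ) := h.map _
    exact h'.ne_zero
  · intro h
    have h1 : (γ : K × Ω).1 ≠ 0 := fun h0 => h (hΓ _ γ.2 h0)
    refine isUnit_iff_exists_inv.mpr ⟨⟨_, inv_mem_of_maximal hΓ hmax γ.2 h⟩, ?_⟩
    apply Subtype.ext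
    ext <;> simp [h1, h]

theorem isLocalRing_of_maximal : IsLocalRing Γ := by
  refine IsLocalRing.of_nonunits_add ?_
  intro a b ha hb
  rw [mem_nonunits_iff, isUnit_iff_of_maximal hΓ hmax, not_not] at ha hb ⊢
  simp [ha, hb]

theorem isLocalHom_snd_of_maximal : IsLocalHom ((RingHom.snd K Ω).comp Γ.subtype) := by
  constructor
  intro γ h
  exact (isUnit_iff_of_maximal hΓ hmax γ).mpr h.ne_zero

end Maximal

/-- **Surjectivity step.**  Let `Γ` be a maximal functional subring of `K × Ω` (`Ω` algebraically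
closed), and `V` a valuation subring of `K` dominating the first projection of `Γ`.  Then every
element of `V` is a first component of an element of `Γ`. -/
theorem exists_mem_of_maximal [IsAlgClosed Ω] {Γ : Subring (K × Ω)} (hΓ : IsFun Γ)
    (hmax : ∀ Γ', IsFun Γ' → Γ ≤ Γ' → Γ' ≤ Γ) (V : ValuationSubring K)
    (hV : ∀ γ : Γ, (γ : K × Ω).1 ∈ V)
    (hdom : ∀ γ : Γ, (γ : K × Ω).2 = 0 → (γ : K × Ω).1 ∈ V.nonunits)
    (x : K) (hx : x ∈ V) : ∃ ω : Ω, (x, ω) ∈ Γ := by
  classical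
  have hloc : IsLocalRing Γ := isLocalRing_of_maximal hΓ hmax
  let fst' : Γ →+* K := (RingHom.fst K Ω).comp Γ.subtype
  let snd' : Γ →+* Ω := (RingHom.snd K Ω).comp Γ.subtype
  have hsnd : IsLocalHom snd' := isLocalHom_snd_of_maximal hΓ hmax
  let φ : Γ →+* V := fst'.codRestrict V.toSubring hV
  have hφ : IsLocalHom φ := by
    constructor
    intro γ h
    rw [isUnit_iff_of_maximal hΓ hmax]
    intro h0
    have h1 := hdom γ h0
    rw [ValuationSubring.mem_nonunits_iff_exists_mem_maximalIdeal] at h1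
    obtain ⟨ha, h2⟩ := h1
    exact ((IsLocalRing.mem_maximalIdeal _).mp h2) h
  let res : Γ →+* ResidueField Γ := IsLocalRing.residue Γ
  let gbar : ResidueField Γ →+* Ω := IsLocalRing.ResidueField.lift snd'
  have hgbar : gbar.comp res = snd' := IsLocalRing.ResidueField.lift_comp_residue snd'
  let I : Ideal Γ[X] := RingHom.ker (Polynomial.eval₂RingHom fst' x)
  let J : Ideal (ResidueField Γ)[X] := I.map (Polynomial.mapRingHom res)
  have hsurj : Function.Surjective (Polynomial.mapRingHom res) := by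
    rw [Polynomial.coe_mapRingHom]
    exact Polynomial.map_surjective res IsLocalRing.residue_surjective
  -- `J` is a proper ideal
  have hJ : J ≠ ⊤ := by
    intro hJ
    have h1 : (1 : (ResidueField Γ)[X]) ∈ J := by rw [hJ]; trivial
    obtain ⟨Q, hQI, hQ1⟩ := (Ideal.mem_map_iff_of_surjective _ hsurj).mp h1
    rw [Polynomial.coe_mapRingHom] at hQ1
    have hQ0 : Polynomial.eval₂ fst' x Q = 0 := hQI
    let x' : V := ⟨x, hx⟩
    have h2 : Polynomial.eval₂ φ x' Q = 0 := by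
      apply Subtype.ext
      have := Polynomial.hom_eval₂ Q φ V.subtype x'
      rw [ValuationSubring.coe_subtype] at this
      rw [this]
      exact hQ0
    have h3 := Polynomial.hom_eval₂ Q φ (IsLocalRing.residue V) x'
    rw [h2, map_zero, ← IsLocalRing.ResidueField.map_comp_residue φ, ← Polynomial.eval₂_map,
      hQ1, Polynomial.eval₂_one] at h3
    exact zero_ne_one h3
  -- a generator of `J` and a root of it in `Ω`
  obtain ⟨d, hd⟩ : ∃ d, J = Ideal.span {d} :=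
    (IsPrincipalIdealRing.principal J).principal
  have hdu : ¬ IsUnit d := by
    intro hu
    apply hJ
    rw [hd]
    exact Ideal.span_singleton_eq_top.mpr hu
  obtain ⟨ω, hω⟩ : ∃ ω : Ω, Polynomial.eval₂ gbar ω d = 0 := by
    by_cases hd0 : d = 0
    · exact ⟨0, by simp [hd0]⟩
    · have hdeg : (d.map gbar).degree ≠ 0 := by
        rw [Polynomial.degree_map]
        exact fun h => hdu (Polynomial.isUnit_iff_degree_eq_zero.mpr h)
      obtain ⟨ω, hω⟩ := IsAlgClosed.exists_root _ hdeg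
      exact ⟨ω, by rwa [Polynomial.IsRoot, Polynomial.eval_map] at hω⟩
  have hI : ∀ P ∈ I, Polynomial.eval₂ snd' ω P = 0 := by
    intro P hP
    have h1 : Polynomial.mapRingHom res P ∈ J := Ideal.mem_map_of_mem _ hP
    rw [hd, Ideal.mem_span_singleton'] at h1
    obtain ⟨c, hc⟩ := h1
    rw [Polynomial.coe_mapRingHom] at hc
    rw [← hgbar, ← Polynomial.eval₂_map, ← hc, Polynomial.eval₂_mul, hω, mul_zero]
  -- the enlarged functional subring
  let ψ : Γ[X] →+* K × Ω := Polynomial.eval₂RingHom Γ.subtype (x, ω)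
  have hψ1 : ∀ P : Γ[X], (ψ P).1 = Polynomial.eval₂ fst' x P := by
    intro P
    exact Polynomial.hom_eval₂ P Γ.subtype (RingHom.fst K Ω) (x, ω)
  have hψ2 : ∀ P : Γ[X], (ψ P).2 = Polynomial.eval₂ snd' ω P := by
    intro P
    exact Polynomial.hom_eval₂ P Γ.subtype (RingHom.snd K Ω) (x, ω)
  have hfun : IsFun ψ.range := by
    rintro _ ⟨P, rfl⟩ h0
    rw [hψ1] at h0
    rw [hψ2]
    exact hI P h0
  have hle : Γ ≤ ψ.range := by
    intro γ hγ
    exact ⟨Polynomial.C ⟨γ, hγ⟩, by simp [ψ]⟩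
  refine ⟨ω, hmax _ hfun hle ⟨Polynomial.X, by simp [ψ]⟩⟩

/-- **Chevalley's place-extension theorem**, graph form: a functional subring `Γ₀` of `K × Ω`
(`Ω` algebraically closed) extends to the graph of a place of `K`: a valuation subring `V` of `K`
and `f : V →+* Ω` with kernel the maximal ideal. -/
theorem exists_place_of_isFun [IsAlgClosed Ω] (Γ₀ : Subring (K × Ω)) (h₀ : IsFun Γ₀) :
    ∃ (V : ValuationSubring K) (f : V →+* Ω),
      (∀ p ∈ Γ₀, ∃ h : p.1 ∈ V, f ⟨p.1, h⟩ = p.2) ∧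
      ∀ x : V, f x = 0 ↔ x ∈ IsLocalRing.maximalIdeal V := by
  classical
  obtain ⟨Γ, hle, hΓ, hmax⟩ := exists_maximal Γ₀ h₀
  have hloc : IsLocalRing Γ := isLocalRing_of_maximal hΓ hmax
  let fst' : Γ →+* K := (RingHom.fst K Ω).comp Γ.subtype
  let snd' : Γ →+* Ω := (RingHom.snd K Ω).comp Γ.subtype
  obtain ⟨V, hV, hVloc⟩ := IsLocalRing.exists_factor_valuationRing fst'
  let φ : Γ →+* V := fst'.codRestrict V.toSubring hV
  have hdom : ∀ γ : Γ, (γ : K × Ω).2 = 0 → (γ : K × Ω).1 ∈ V.nonunits := by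
    intro γ h0
    rw [ValuationSubring.mem_nonunits_iff_exists_mem_maximalIdeal]
    refine ⟨hV γ, ?_⟩
    rw [IsLocalRing.mem_maximalIdeal, mem_nonunits_iff]
    intro hu
    have hu' : IsUnit γ := hVloc.map_nonunit γ hu
    exact (isUnit_iff_of_maximal hΓ hmax γ).mp hu' h0
  have hinj : Function.Injective φ := by
    intro a b hab
    have h1 : (a : K × Ω).1 = (b : K × Ω).1 := congrArg (fun z : V => (z : K)) hab
    have h2 : ((a - b : Γ) : K × Ω).2 = 0 := hΓ _ (a - b).2 (by simp [h1])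
    apply Subtype.ext
    ext
    · exact h1
    · have : (a : K × Ω).2 - (b : K × Ω).2 = 0 := by simpa using h2
      exact sub_eq_zero.mp this
  have hsurj : Function.Surjective φ := by
    rintro ⟨x, hx⟩
    obtain ⟨ω, hω⟩ := exists_mem_of_maximal hΓ hmax V hV hdom x hx
    exact ⟨⟨(x, ω), hω⟩, Subtype.ext rfl⟩
  let e : Γ ≃+* V := RingEquiv.ofBijective φ ⟨hinj, hsurj⟩
  refine ⟨V, snd'.comp (e.symm : V →+* Γ), ?_, ?_⟩
  · intro p hp
    refine ⟨hV ⟨p, hle hp⟩, ?_⟩
    have h1 : e ⟨p, hle hp⟩ = ⟨p.1, hV ⟨p, hle hp⟩⟩ := Subtype.ext rfl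
    have h2 : e.symm ⟨p.1, hV ⟨p, hle hp⟩⟩ = ⟨p, hle hp⟩ := by
      rw [← h1, RingEquiv.symm_apply_apply]
    simp only [RingHom.coe_comp, RingHom.coe_coe, Function.comp_apply]
    rw [h2]
    rfl
  · intro x
    rw [IsLocalRing.mem_maximalIdeal, mem_nonunits_iff]
    have h1 : IsUnit x ↔ IsUnit (e.symm x) := (isUnit_map_iff e.symm x).symm
    rw [h1, isUnit_iff_of_maximal hΓ hmax, not_not]
    rfl

/-- **Chevalley's place-extension theorem.**  Let `ι : A →+* K` and `f₀ : A →+* Ω` be ring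
homomorphisms to a field `K` and an algebraically closed field `Ω`, with `ker ι ≤ ker f₀`.  Then
there are a valuation subring `V` of `K` containing `ι A` and a homomorphism `f : V →+* Ω` with
`f ∘ ι = f₀` whose kernel is the maximal ideal of `V`. -/
theorem exists_place_extension {A : Type*} [CommRing A] [IsAlgClosed Ω]
    (ι : A →+* K) (f₀ : A →+* Ω) (hker : ∀ a, ι a = 0 → f₀ a = 0) :
    ∃ (V : ValuationSubring K) (f : V →+* Ω),
      (∀ a : A, ∃ h : ι a ∈ V, f ⟨ι a, h⟩ = f₀ a) ∧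
      ∀ x : V, f x = 0 ↔ x ∈ IsLocalRing.maximalIdeal V := by
  have h₀ : IsFun (ι.prod f₀).range := by
    rintro _ ⟨a, rfl⟩ h
    exact hker a h
  obtain ⟨V, f, h1, h2⟩ := exists_place_of_isFun (ι.prod f₀).range h₀
  exact ⟨V, f, fun a => h1 (ι.prod f₀ a) ⟨a, rfl⟩, h2⟩

/-- Chevalley's theorem for a subring `A₀` of `K`. -/
theorem exists_place_extension_subring [IsAlgClosed Ω] (A₀ : Subring K) (f₀ : A₀ →+* Ω) :
    ∃ (V : ValuationSubring K) (f : V →+* Ω),
      (∀ a : A₀, ∃ h : (a : K) ∈ V, f ⟨a, h⟩ = f₀ a) ∧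
      ∀ x : V, f x = 0 ↔ x ∈ IsLocalRing.maximalIdeal V :=
  exists_place_extension A₀.subtype f₀ (fun a ha => by
    have : a = 0 := Subtype.ext ha
    rw [this, map_zero])

/-! ### Split places and one-step extension -/

/-- A place `ρ : R →+* Ω` (kernel = maximal ideal) kills exactly the non-units. -/
theorem map_eq_zero_iff_not_isUnit {R : ValuationSubring K} {ρ : R →+* Ω}
    (hρ : ∀ x : R, ρ x = 0 ↔ x ∈ IsLocalRing.maximalIdeal R) (x : R) :
    ρ x = 0 ↔ ¬ IsUnit x := by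
  rw [hρ, IsLocalRing.mem_maximalIdeal, mem_nonunits_iff]

/-- **Split places exist** (Chevalley).  If `L` is algebraically closed and `M / L` is any field
extension, there is a valuation subring `R` of `M` containing `L` together with a residue map
`ρ : R →+* L` which is the identity on `L` and whose kernel is the maximal ideal of `R`. -/
theorem exists_splitPlace (L : Type*) (M : Type*) [Field L] [Field M] [Algebra L M]
    [IsAlgClosed L] :
    ∃ (R : ValuationSubring M) (ρ : R →+* L),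
      (∀ a : L, ∃ h : algebraMap L M a ∈ R, ρ ⟨algebraMap L M a, h⟩ = a) ∧
      ∀ x : R, ρ x = 0 ↔ x ∈ IsLocalRing.maximalIdeal R :=
  exists_place_extension (algebraMap L M) (RingHom.id L)
    (fun a ha => by simpa using ha)

/-- Split places in the hypothesis shape of `Lib/Red` (`hπ`, `hsurj`). -/
theorem exists_splitPlace' (L : Type*) (M : Type*) [Field L] [Field M] [Algebra L M]
    [IsAlgClosed L] :
    ∃ (R : ValuationSubring M) (ρ : R →+* L),
      (∀ a : L, ∃ h : algebraMap L M a ∈ R, ρ ⟨algebraMap L M a, h⟩ = a) ∧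
      (∀ x : R, ¬ IsUnit x → ρ x = 0) ∧ (∀ x : R, ρ x = 0 → ¬ IsUnit x) ∧
      Function.Surjective ρ := by
  obtain ⟨R, ρ, h1, h2⟩ := exists_splitPlace L M
  refine ⟨R, ρ, h1, fun x hx => (map_eq_zero_iff_not_isUnit h2 x).mpr hx,
    fun x hx => (map_eq_zero_iff_not_isUnit h2 x).mp hx, fun a => ?_⟩
  obtain ⟨h, ha⟩ := h1 a
  exact ⟨_, ha⟩

/-- **One-step extension of a place** along a field embedding `ι : F →+* M`: a valuation subring
`O` of `F` with a residue map `π₀ : O →+* Ω` (`Ω` algebraically closed, kernel = maximal ideal)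
extends to a valuation subring `R` of `M` with `R ∩ F = O` and a residue map `ρ : R →+* Ω`
extending `π₀`. -/
theorem exists_extension_valuationSubring {F : Type*} {M : Type*} [Field F] [Field M]
    [IsAlgClosed Ω] (ι : F →+* M) (O : ValuationSubring F) (π₀ : O →+* Ω)
    (hπ₀ : ∀ a : O, π₀ a = 0 ↔ a ∈ IsLocalRing.maximalIdeal O) :
    ∃ (R : ValuationSubring M) (ρ : R →+* Ω), R.comap ι = O ∧
      (∀ a : O, ∃ h : ι a ∈ R, ρ ⟨ι a, h⟩ = π₀ a) ∧
      ∀ x : R, ρ x = 0 ↔ x ∈ IsLocalRing.maximalIdeal R := by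
  obtain ⟨R, ρ, h1, h2⟩ := exists_place_extension (ι.comp O.subtype) π₀ (fun a ha => by
    have h0 : (a : F) = 0 := (map_eq_zero ι).mp ha
    have : a = 0 := Subtype.ext h0
    rw [this, map_zero])
  refine ⟨R, ρ, ?_, h1, h2⟩
  ext x
  rw [ValuationSubring.mem_comap]
  constructor
  · intro hx
    by_contra hxO
    have hx0 : x ≠ 0 := fun h => hxO (h ▸ O.zero_mem)
    have hinv : x⁻¹ ∈ O := (O.mem_or_inv_mem x).resolve_left hxO
    have hnu : ¬ IsUnit (⟨x⁻¹, hinv⟩ : O) := by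
      intro hu
      obtain ⟨b, hb⟩ := isUnit_iff_exists_inv.mp hu
      have hb' : x⁻¹ * (b : F) = 1 := congrArg (fun z : O => (z : F)) hb
      have : (b : F) = x := by
        field_simp at hb'
        exact hb'
      exact hxO (this ▸ b.2)
    have hπ : π₀ ⟨x⁻¹, hinv⟩ = 0 := by
      rw [hπ₀, IsLocalRing.mem_maximalIdeal, mem_nonunits_iff]
      exact hnu
    obtain ⟨h, hρ⟩ := h1 ⟨x⁻¹, hinv⟩
    rw [hπ] at hρ
    have hnu' : ¬ IsUnit (⟨_, h⟩ : R) := (map_eq_zero_iff_not_isUnit h2 _).mp hρ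
    apply hnu'
    refine isUnit_iff_exists_inv.mpr ⟨⟨ι x, hx⟩, ?_⟩
    apply Subtype.ext
    change ι x⁻¹ * ι x = 1
    rw [← map_mul, inv_mul_cancel₀ hx0, map_one]
  · intro hx
    exact (h1 ⟨x, hx⟩).1

/-- One-step extension, split form: if moreover `F` and `M` are extensions of the algebraically
closed field `L`, `ι` is an `L`-embedding and `π₀` is the identity on `L`, then the extended place
of `M` is split over `L`. -/
theorem exists_splitPlace_extension {L : Type*} {F : Type*} {M : Type*} [Field L] [Field F]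
    [Field M] [Algebra L F] [Algebra L M] [IsAlgClosed L] (ι : F →ₐ[L] M)
    (O : ValuationSubring F) (π₀ : O →+* L)
    (hπ₀ : ∀ a : O, π₀ a = 0 ↔ a ∈ IsLocalRing.maximalIdeal O)
    (hL : ∀ a : L, ∃ h : algebraMap L F a ∈ O, π₀ ⟨algebraMap L F a, h⟩ = a) :
    ∃ (R : ValuationSubring M) (ρ : R →+* L), R.comap (ι : F →+* M) = O ∧
      (∀ a : O, ∃ h : ι a ∈ R, ρ ⟨ι a, h⟩ = π₀ a) ∧
      (∀ a : L, ∃ h : algebraMap L M a ∈ R, ρ ⟨algebraMap L M a, h⟩ = a) ∧
      ∀ x : R, ρ x = 0 ↔ x ∈ IsLocalRing.maximalIdeal R := by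
  obtain ⟨R, ρ, h0, h1, h2⟩ := exists_extension_valuationSubring (ι : F →+* M) O π₀ hπ₀
  refine ⟨R, ρ, h0, h1, fun a => ?_, h2⟩
  obtain ⟨ha, hπa⟩ := hL a
  obtain ⟨h, hρ⟩ := h1 ⟨algebraMap L F a, ha⟩
  have e : (ι : F →+* M) (algebraMap L F a) = algebraMap L M a := ι.commutes a
  have hmem : algebraMap L M a ∈ R := e ▸ h
  refine ⟨hmem, ?_⟩
  have h3 : (⟨algebraMap L M a, hmem⟩ : R) = ⟨_, h⟩ := Subtype.ext e.symm
  rw [h3, hρ, hπa]

end Fermat.Agent.MW.DivB.Chevalley
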